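/-
Programme T1B (S44), brick F8 HECKE-N, slice ALP (AL2) (helper27): the Atkin–Lehner expansion at `p`
COMMUTES with the degeneracy maps at a prime `ℓ ≠ p`.

`M, p, ℓ` with `p` prime.  Let `W₁ : F_{Mp} → ℚ̄((q))` and `W₂ : F_{Mℓp} → ℚ̄((q))` be ring homs with the
two properties of `ES.KRON.Conjugates11.exists_W` at `(M, p)` resp. `(Mℓ, p)`:
`W (β_p h) = h`, `W (α_p f) = f(q^p)`.  Then for all `x ∈ F_{Mp}`

* `W₂ (α_ℓ x) = W₁ x`           (`commute_alpha`),
* `W₂ (β_ℓ x) = (W₁ x)(q^ℓ)`    (`commute_beta`),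

where `α_ℓ x, β_ℓ x ∈ F_{Mpℓ}` are read in `F_{Mℓp}` through `levelCast`.

* `ringHom_ext_alpha_beta` : ring homs out of `F_{Mp}` agreeing on `α_p (F_M) ∪ β_p (F_M)` are equal;
* `levelCast`              : `F_A ≃ₐ F_B` for `A = B`, preserving the underlying series.
-/
import Mathlib
import Fermat.Agent.ES.KRON.Conjugates11

set_option autoImplicit false
set_option linter.unusedSectionVars false

noncomputable section

open ModularCurve AlgebraicCurve

namespace Fermat.Agent.T1B.ALP27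

open Fermat.Agent.X0 Fermat.Agent.ES.KRON.Conjugates11

/-! ### generation of `F_{Mp}` by the two copies of `F_M` -/

section Ext

variable {M p : ℕ} [NeZero M] [NeZero p]

/-- Ring homs out of `F_{Mp}` (`p` prime) which agree on `α_p (F_M)` and on `β_p (F_M)` are equal. -/
theorem ringHom_ext_alpha_beta (hp : p.Prime) {L : Type*} [Field L] {φ ψ : FF (M * p) →+* L}
    (hα : ∀ f : FF M, φ (heckeAlphaBar Kbar M p f) = ψ (heckeAlphaBar Kbar M p f))
    (hβ : ∀ h : FF M, φ (heckeBetaBar Kbar M p h) = ψ (heckeBetaBar Kbar M p h)) : φ = ψ := by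
  apply CuspEquiv.ringHom_ext_Rsub
  intro u
  induction u using FracR.Rsub_induction with
  | hgen d hd =>
      rw [FracR.coe_jdR]
      rcases dvd_mul_prime_cases M p hp hd with hdM | ⟨d₀, hd₀, hdd⟩
      · rw [← alpha_jdF M p d hdM hd]
        exact hα _
      · subst hdd
        have : NeZero d₀ := ⟨fun h0 => NeZero.ne (d₀ * p) (by rw [h0, zero_mul])⟩
        rw [← beta_jdF M p d₀ hd₀ hd]
        exact hβ _
  | hconst c =>
      have h1 : ((algebraMap Kbar (Rsub (M * p)) c : Rsub (M * p)) : FF (M * p)) =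
          heckeAlphaBar Kbar M p (algebraMap Kbar (FF M) c) := by
        rw [AlgHom.commutes]
        rfl
      rw [h1]
      exact hα _
  | hadd a b ha hb =>
      rw [Subalgebra.coe_add, map_add, map_add, ha, hb]
  | hmul a b ha hb =>
      rw [Subalgebra.coe_mul, map_mul, map_mul, ha, hb]

end Ext

/-! ### level casts -/

section Cast

/-- `F_A ≃ₐ F_B` for `A = B`. -/
def levelCast {A B : ℕ} (h : A = B) : FF A ≃ₐ[Kbar] FF B := by
  subst h
  exact AlgEquiv.refl

@[simp]
theorem coe_levelCast {A B : ℕ} (h : A = B) (x : FF A) :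
    ((levelCast h x : FF B) : LaurentSeries Kbar) = (x : LaurentSeries Kbar) := by
  subst h
  rfl

@[simp]
theorem coe_levelCast_symm {A B : ℕ} (h : A = B) (x : FF B) :
    (((levelCast h).symm x : FF A) : LaurentSeries Kbar) = (x : LaurentSeries Kbar) := by
  subst h
  rfl

end Cast

/-! ### (AL2) -/

section Commute

variable {M p ℓ : ℕ} [NeZero M] [NeZero p] [NeZero ℓ]

/-- the level identity `(M p) ℓ = (M ℓ) p`. -/
theorem level_comm (M p ℓ : ℕ) : M * p * ℓ = M * ℓ * p := Nat.mul_right_comm M p ℓ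

/-- **(AL2-α)** `W₂ (α_ℓ x) = W₁ x`. -/
theorem commute_alpha (hp : p.Prime)
    {W₁ : FF (M * p) →+* LaurentSeries Kbar}
    (hW₁β : ∀ h : FF M, W₁ (heckeBetaBar Kbar M p h) = (h : LaurentSeries Kbar))
    (hW₁α : ∀ f : FF M, W₁ (heckeAlphaBar Kbar M p f) = qExpand Kbar p (f : LaurentSeries Kbar))
    {W₂ : FF (M * ℓ * p) →+* LaurentSeries Kbar}
    (hW₂β : ∀ h : FF (M * ℓ), W₂ (heckeBetaBar Kbar (M * ℓ) p h) = (h : LaurentSeries Kbar))
    (hW₂α : ∀ f : FF (M * ℓ), W₂ (heckeAlphaBar Kbar (M * ℓ) p f) =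
      qExpand Kbar p (f : LaurentSeries Kbar))
    (x : FF (M * p)) :
    W₂ (levelCast (level_comm M p ℓ) (heckeAlphaBar Kbar (M * p) ℓ x)) = W₁ x := by
  have key : W₂.comp (((levelCast (level_comm M p ℓ)) : FF (M * p * ℓ) →+* FF (M * ℓ * p)).comp
      (heckeAlphaBar Kbar (M * p) ℓ).toRingHom) = W₁ := by
    apply ringHom_ext_alpha_beta hp
    · intro f
      have h1 : levelCast (level_comm M p ℓ)
          (heckeAlphaBar Kbar (M * p) ℓ (heckeAlphaBar Kbar M p f)) =
          heckeAlphaBar Kbar (M * ℓ) p (heckeAlphaBar Kbar M ℓ f) := by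
        apply Subtype.ext
        rw [coe_levelCast, coe_heckeAlphaBar, coe_heckeAlphaBar, coe_heckeAlphaBar,
          coe_heckeAlphaBar]
      show W₂ (levelCast (level_comm M p ℓ)
        (heckeAlphaBar Kbar (M * p) ℓ (heckeAlphaBar Kbar M p f))) = _
      rw [h1, hW₂α, hW₁α, coe_heckeAlphaBar]
    · intro h
      have h1 : levelCast (level_comm M p ℓ)
          (heckeAlphaBar Kbar (M * p) ℓ (heckeBetaBar Kbar M p h)) =
          heckeBetaBar Kbar (M * ℓ) p (heckeAlphaBar Kbar M ℓ h) := by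
        apply Subtype.ext
        rw [coe_levelCast, coe_heckeAlphaBar, coe_heckeBetaBar, coe_heckeBetaBar,
          coe_heckeAlphaBar]
      show W₂ (levelCast (level_comm M p ℓ)
        (heckeAlphaBar Kbar (M * p) ℓ (heckeBetaBar Kbar M p h))) = _
      rw [h1, hW₂β, hW₁β, coe_heckeAlphaBar]
  exact congrArg (fun φ : FF (M * p) →+* LaurentSeries Kbar => φ x) key

/-- **(AL2-β)** `W₂ (β_ℓ x) = (W₁ x)(q^ℓ)`. -/
theorem commute_beta (hp : p.Prime)
    {W₁ : FF (M * p) →+* LaurentSeries Kbar}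
    (hW₁β : ∀ h : FF M, W₁ (heckeBetaBar Kbar M p h) = (h : LaurentSeries Kbar))
    (hW₁α : ∀ f : FF M, W₁ (heckeAlphaBar Kbar M p f) = qExpand Kbar p (f : LaurentSeries Kbar))
    {W₂ : FF (M * ℓ * p) →+* LaurentSeries Kbar}
    (hW₂β : ∀ h : FF (M * ℓ), W₂ (heckeBetaBar Kbar (M * ℓ) p h) = (h : LaurentSeries Kbar))
    (hW₂α : ∀ f : FF (M * ℓ), W₂ (heckeAlphaBar Kbar (M * ℓ) p f) =
      qExpand Kbar p (f : LaurentSeries Kbar))
    (x : FF (M * p)) :
    W₂ (levelCast (level_comm M p ℓ) (heckeBetaBar Kbar (M * p) ℓ x)) =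
      qExpand Kbar ℓ (W₁ x) := by
  have key : W₂.comp (((levelCast (level_comm M p ℓ)) : FF (M * p * ℓ) →+* FF (M * ℓ * p)).comp
      (heckeBetaBar Kbar (M * p) ℓ).toRingHom) = (qExpand Kbar ℓ).comp W₁ := by
    apply ringHom_ext_alpha_beta hp
    · intro f
      have h1 : levelCast (level_comm M p ℓ)
          (heckeBetaBar Kbar (M * p) ℓ (heckeAlphaBar Kbar M p f)) =
          heckeAlphaBar Kbar (M * ℓ) p (heckeBetaBar Kbar M ℓ f) := by
        apply Subtype.ext
        rw [coe_levelCast, coe_heckeBetaBar, coe_heckeAlphaBar, coe_heckeAlphaBar,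
          coe_heckeBetaBar]
      show W₂ (levelCast (level_comm M p ℓ)
        (heckeBetaBar Kbar (M * p) ℓ (heckeAlphaBar Kbar M p f))) = qExpand Kbar ℓ (W₁ _)
      rw [h1, hW₂α, hW₁α, coe_heckeBetaBar, qExpand_qExpand, qExpand_qExpand]
      exact qExpand_congr (mul_comm p ℓ) _
    · intro h
      have h1 : levelCast (level_comm M p ℓ)
          (heckeBetaBar Kbar (M * p) ℓ (heckeBetaBar Kbar M p h)) =
          heckeBetaBar Kbar (M * ℓ) p (heckeBetaBar Kbar M ℓ h) := by
        apply Subtype.ext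
        rw [coe_levelCast, coe_heckeBetaBar, coe_heckeBetaBar, coe_heckeBetaBar,
          coe_heckeBetaBar, qExpand_qExpand, qExpand_qExpand]
        exact qExpand_congr (mul_comm ℓ p) _
      show W₂ (levelCast (level_comm M p ℓ)
        (heckeBetaBar Kbar (M * p) ℓ (heckeBetaBar Kbar M p h))) = qExpand Kbar ℓ (W₁ _)
      rw [h1, hW₂β, hW₁β, coe_heckeBetaBar]
  exact congrArg (fun φ : FF (M * p) →+* LaurentSeries Kbar => φ x) key

end Commute

end Fermat.Agent.T1B.ALP27
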