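/-
Programme T1B (S44), brick F8 HECKE-N, slice ALP (AL3) (helper27): TRANSPORT of the two product
formulas through an automorphism of the tower `F_N ⊂ F_{Nℓ}`.

* `normAlong_map_equiv` (generic): if `σ : F ≃+* F`, `σ' : F' ≃+* F'` and `σ' ∘ ψ = ψ ∘ σ`, then
  `σ (N_ψ y) = N_ψ (σ' y)` ("norms commute with an isomorphism of the tower");
* `normAlong_alpha_beta_map_equiv`, `normAlong_beta_alpha_map_equiv` : for `σ, σ'` commuting with both
  degeneracy maps, `σ (N_α (β f)) = N_α (β (σ f))` and `σ (N_β (α f)) = N_β (α (σ f))`;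
* `qExpand_equiv_normAlong_alpha_beta` (`ℓ ∤ N`):
  `(σ (N_α (β f)))(q^ℓ) = (∏_{b<ℓ} (σ f)(ζ^b q)) · (σ f)(q^{ℓ²})`;
* `qExpand_equiv_normAlong_beta_alpha` (`ℓ ∤ N`): the same for `N_β (α f)`;
* `qExpand_equiv_normAlong_beta_alpha_of_dvd` (`ℓ ∣ N`):
  `(σ (N_β (α f)))(q^ℓ) = ∏_{b<ℓ} (σ f)(ζ^b q)`.

With `σ = alBar` (the Atkin–Lehner automorphism at `p`, `coe (σ x) = W_p x`) these are the
`T_ℓ`- and `U_ℓ`-product formulas for the expansion `W_p` at the cusp `w_p(∞)`.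
-/
import Mathlib
import Fermat.Agent.ES.KRON.ConjNorm11
import Fermat.Agent.T1B.UProd27.NormBeta

set_option autoImplicit false
set_option linter.unusedSectionVars false
set_option linter.style.haveILetI false

noncomputable section

open ModularCurve AlgebraicCurve

namespace Fermat.Agent.T1B.ALP27

open Fermat.Agent.X0 Fermat.Agent.ES.KRON.KronCong24 Fermat.Agent.ES.HECKE.PointFormula28

/-! ### generic -/

section Generic

variable {K F F' : Type*} [Field K] [Field F] [Field F'] [Algebra K F] [Algebra K F']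

/-- **Norms commute with an isomorphism of the tower.** -/
theorem normAlong_map_equiv (ψ : F →ₐ[K] F') (σ : F ≃+* F) (σ' : F' ≃+* F')
    (h : ∀ x : F, σ' (ψ x) = ψ (σ x)) (y : F') :
    σ (normAlong ψ y) = normAlong ψ (σ' y) := by
  letI := algebraAlong ψ
  have he : RingHom.comp (algebraMap F F') (σ : F →+* F) =
      RingHom.comp (σ' : F' →+* F') (algebraMap F F') := by
    ext x
    exact (h x).symm
  have h1 := Algebra.norm_eq_of_equiv_equiv σ σ' he y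
  show σ (Algebra.norm F y) = Algebra.norm F (σ' y)
  rw [h1, RingEquiv.apply_symm_apply]

end Generic

/-! ### the degeneracy maps -/

section Modular

variable {L : Type} [Field L] [Algebra ℚ L] {N ℓ : ℕ} [NeZero N] [NeZero ℓ]

local notation "FN" => laurentBaseChange L (modularFunctionFieldFull N)
local notation "FNℓ" => laurentBaseChange L (modularFunctionFieldFull (N * ℓ))

/-- `σ (N_α (β f)) = N_α (β (σ f))`. -/
theorem normAlong_alpha_beta_map_equiv (σ : FN ≃+* FN) (σ' : FNℓ ≃+* FNℓ)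
    (hα : ∀ x : FN, σ' (heckeAlphaBar L N ℓ x) = heckeAlphaBar L N ℓ (σ x))
    (hβ : ∀ x : FN, σ' (heckeBetaBar L N ℓ x) = heckeBetaBar L N ℓ (σ x)) (f : FN) :
    σ (normAlong (heckeAlphaBar L N ℓ) (heckeBetaBar L N ℓ f)) =
      normAlong (heckeAlphaBar L N ℓ) (heckeBetaBar L N ℓ (σ f)) := by
  rw [normAlong_map_equiv (heckeAlphaBar L N ℓ) σ σ' hα, hβ]

/-- `σ (N_β (α f)) = N_β (α (σ f))`. -/
theorem normAlong_beta_alpha_map_equiv (σ : FN ≃+* FN) (σ' : FNℓ ≃+* FNℓ)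
    (hα : ∀ x : FN, σ' (heckeAlphaBar L N ℓ x) = heckeAlphaBar L N ℓ (σ x))
    (hβ : ∀ x : FN, σ' (heckeBetaBar L N ℓ x) = heckeBetaBar L N ℓ (σ x)) (f : FN) :
    σ (normAlong (heckeBetaBar L N ℓ) (heckeAlphaBar L N ℓ f)) =
      normAlong (heckeBetaBar L N ℓ) (heckeAlphaBar L N ℓ (σ f)) := by
  rw [normAlong_map_equiv (heckeBetaBar L N ℓ) σ σ' hβ, hα]

/-- **`U_ℓ`-product formula transported** (`ℓ ∣ N`):
`(σ (N_β (α f)))(q^ℓ) = ∏_{b<ℓ} (σ f)(ζ^b q)`. -/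
theorem qExpand_equiv_normAlong_beta_alpha_of_dvd (hℓ : ℓ.Prime) (hℓN : ℓ ∣ N) {ζ : Lˣ}
    (hζ : IsPrimitiveRoot ζ ℓ) (σ : FN ≃+* FN) (σ' : FNℓ ≃+* FNℓ)
    (hα : ∀ x : FN, σ' (heckeAlphaBar L N ℓ x) = heckeAlphaBar L N ℓ (σ x))
    (hβ : ∀ x : FN, σ' (heckeBetaBar L N ℓ x) = heckeBetaBar L N ℓ (σ x)) (f : FN) :
    qExpand L ℓ ((σ (normAlong (heckeBetaBar L N ℓ) (heckeAlphaBar L N ℓ f)) : FN) :
        LaurentSeries L) =
      ∏ b ∈ Finset.range ℓ, twistU (ζ ^ b) ((σ f : FN) : LaurentSeries L) := by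
  rw [normAlong_beta_alpha_map_equiv σ σ' hα hβ]
  exact Fermat.Agent.T1B.UProd27.qExpand_normAlong_beta_alpha hℓ hℓN hζ (σ f)

end Modular

section ModularBar

variable {N ℓ : ℕ} [NeZero N] [NeZero ℓ]

/-- **`T_ℓ`-product formula transported** (`ℓ ∤ N`):
`(σ (N_α (β f)))(q^ℓ) = (∏_{b<ℓ} (σ f)(ζ^b q)) · (σ f)(q^{ℓ²})`. -/
theorem qExpand_equiv_normAlong_alpha_beta (hℓ : ℓ.Prime) (hℓN : ¬ ℓ ∣ N) (ζ : Kbarˣ)
    (hζ : IsPrimitiveRoot ζ ℓ) (σ : FF N ≃+* FF N) (σ' : FF (N * ℓ) ≃+* FF (N * ℓ))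
    (hα : ∀ x : FF N, σ' (heckeAlphaBar Kbar N ℓ x) = heckeAlphaBar Kbar N ℓ (σ x))
    (hβ : ∀ x : FF N, σ' (heckeBetaBar Kbar N ℓ x) = heckeBetaBar Kbar N ℓ (σ x)) (f : FF N) :
    qExpand Kbar ℓ ((σ (normAlong (heckeAlphaBar Kbar N ℓ) (heckeBetaBar Kbar N ℓ f)) : FF N) :
        LaurentSeries Kbar) =
      (∏ b ∈ Finset.range ℓ, twistU (ζ ^ b) ((σ f : FF N) : LaurentSeries Kbar)) *
        qExpand Kbar (ℓ ^ 2) ((σ f : FF N) : LaurentSeries Kbar) := by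
  have h := normAlong_alpha_beta_map_equiv (L := Kbar) (N := N) (ℓ := ℓ) σ σ' hα hβ f
  rw [h]
  exact Fermat.Agent.ES.KRON.ConjNorm11.qExpand_normAlong_alpha_beta N ℓ hℓ hℓN ζ hζ (σ f)

/-- the same for `N_β (α f)` (`ℓ ∤ N`). -/
theorem qExpand_equiv_normAlong_beta_alpha (hℓ : ℓ.Prime) (hℓN : ¬ ℓ ∣ N) (ζ : Kbarˣ)
    (hζ : IsPrimitiveRoot ζ ℓ) (σ : FF N ≃+* FF N) (σ' : FF (N * ℓ) ≃+* FF (N * ℓ))
    (hα : ∀ x : FF N, σ' (heckeAlphaBar Kbar N ℓ x) = heckeAlphaBar Kbar N ℓ (σ x))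
    (hβ : ∀ x : FF N, σ' (heckeBetaBar Kbar N ℓ x) = heckeBetaBar Kbar N ℓ (σ x)) (f : FF N) :
    qExpand Kbar ℓ ((σ (normAlong (heckeBetaBar Kbar N ℓ) (heckeAlphaBar Kbar N ℓ f)) : FF N) :
        LaurentSeries Kbar) =
      (∏ b ∈ Finset.range ℓ, twistU (ζ ^ b) ((σ f : FF N) : LaurentSeries Kbar)) *
        qExpand Kbar (ℓ ^ 2) ((σ f : FF N) : LaurentSeries Kbar) := by
  have h := normAlong_beta_alpha_map_equiv (L := Kbar) (N := N) (ℓ := ℓ) σ σ' hα hβ f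
  rw [h]
  exact Fermat.Agent.ES.KRON.ConjNorm11.qExpand_normAlong_beta_alpha N ℓ hℓ hℓN ζ hζ (σ f)

end ModularBar

end Fermat.Agent.T1B.ALP27
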