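/-
Programme T1B (S44), brick F8 HECKE-N, slice ALP (AL2)+(AL3), GLUE (helper27): the `T_ℓ`- and
`U_ℓ`-product formulas for the Atkin–Lehner expansion `W_p` at the cusp `w_p(∞)` of `X₀(M p)`.

`M` a level, `p ∤ M` prime, `W_p = ALP90.AL1.Wp M p : F_{Mp} → ℚ̄((q))` (helper20), `ℓ ≠ p` prime,
`α = α_ℓ, β = β_ℓ : F_{Mp} → F_{Mpℓ}`, `ζ` a primitive `ℓ`-th root of unity:

* `alBarUp`    : the Atkin–Lehner involution `w_p` of `F_{(Mp)ℓ}` (through the level cast to `F_{(Mℓ)p}`);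
  `alBarUp_alpha`, `alBarUp_beta` : `w_p ∘ α_ℓ = α_ℓ ∘ w_p`, `w_p ∘ β_ℓ = β_ℓ ∘ w_p`  **(AL2)**;
* `Wp_normAlong_alpha_beta`, `Wp_normAlong_beta_alpha` :
  `W_p (N_α (β f)) = N_α (β (w_p f))` (as series), resp. for `N_β (α f)`;
* `qExpand_Wp_normAlong_alpha_beta` (`ℓ ∤ M p`)  **(AL3, `T_ℓ`)**:
  `(W_p (N_α (β f)))(q^ℓ) = (∏_{b<ℓ} (W_p f)(ζ^b q)) · (W_p f)(q^{ℓ²})`;
* `qExpand_Wp_normAlong_beta_alpha` (`ℓ ∤ M p`): the same for `N_β (α f)`;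
* `qExpand_Wp_normAlong_beta_alpha_of_dvd` (`ℓ ∣ M`)  **(AL3, `U_ℓ`)**:
  `(W_p (N_β (α f)))(q^ℓ) = ∏_{b<ℓ} (W_p f)(ζ^b q)`.
-/
import Mathlib
import Fermat.Agent.T1B.ALP90.AL1
import Fermat.Agent.T1B.ALP27.Commute
import Fermat.Agent.T1B.ALP27.Transport

set_option autoImplicit false
set_option linter.unusedSectionVars false

noncomputable section

open ModularCurve AlgebraicCurve

namespace Fermat.Agent.T1B.ALP27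

open Fermat.Agent.X0 Fermat.Agent.ES.KRON.KronCong24 Fermat.Agent.ES.HECKE.PointFormula28
open Fermat.Agent.T1B.ALP90

variable (M p ℓ : ℕ) [NeZero M] [NeZero p] [NeZero ℓ]

/-- `p ∤ M ℓ` for distinct primes `p, ℓ` with `p ∤ M`. -/
theorem not_dvd_mul_of_ne (hp : p.Prime) (hpM : ¬ p ∣ M) (hℓ : ℓ.Prime) (hpℓ : p ≠ ℓ) :
    ¬ p ∣ M * ℓ := by
  intro h
  rcases (Nat.Prime.dvd_mul hp).mp h with h | h
  · exact hpM h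
  · exact hpℓ ((Nat.prime_dvd_prime_iff_eq hp hℓ).mp h)

/-- `p ≠ ℓ` when `ℓ ∤ M p`. -/
theorem ne_of_not_dvd_mul (hℓN : ¬ ℓ ∣ M * p) : p ≠ ℓ := by
  rintro rfl
  exact hℓN (dvd_mul_left _ _)

/-- `p ≠ ℓ` when `ℓ ∣ M`, `p ∤ M`. -/
theorem ne_of_dvd_of_not_dvd (hpM : ¬ p ∣ M) (hℓM : ℓ ∣ M) : p ≠ ℓ := by
  rintro rfl
  exact hpM hℓM

/-- **The Atkin–Lehner involution `w_p` at level `(M p) ℓ`**. -/
def alBarUp (hp : p.Prime) (hpMℓ : ¬ p ∣ M * ℓ) : FF (M * p * ℓ) ≃+* FF (M * p * ℓ) :=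
  ((levelCast (level_comm M p ℓ)).toRingEquiv.trans
    (AL1.alBar (M * ℓ) p hp hpMℓ).toRingEquiv).trans
    (levelCast (level_comm M p ℓ)).symm.toRingEquiv

theorem coe_alBarUp (hp : p.Prime) (hpMℓ : ¬ p ∣ M * ℓ) (x : FF (M * p * ℓ)) :
    ((alBarUp M p ℓ hp hpMℓ x : FF (M * p * ℓ)) : LaurentSeries Kbar) =
      AL1.Wp (M * ℓ) p hp hpMℓ (levelCast (level_comm M p ℓ) x) := by
  show (((levelCast (level_comm M p ℓ)).symm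
    (AL1.alBar (M * ℓ) p hp hpMℓ (levelCast (level_comm M p ℓ) x)) : FF (M * p * ℓ)) :
      LaurentSeries Kbar) = _
  rw [coe_levelCast_symm, AL1.coe_alBar]

/-- **(AL2-α)** `w_p ∘ α_ℓ = α_ℓ ∘ w_p`. -/
theorem alBarUp_alpha (hp : p.Prime) (hpM : ¬ p ∣ M) (hpMℓ : ¬ p ∣ M * ℓ) (x : FF (M * p)) :
    alBarUp M p ℓ hp hpMℓ (heckeAlphaBar Kbar (M * p) ℓ x) =
      heckeAlphaBar Kbar (M * p) ℓ (AL1.alBar M p hp hpM x) := by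
  apply Subtype.ext
  rw [coe_alBarUp, coe_heckeAlphaBar, AL1.coe_alBar]
  exact commute_alpha hp (AL1.Wp_beta M p hp hpM) (AL1.Wp_alpha M p hp hpM)
    (AL1.Wp_beta (M * ℓ) p hp hpMℓ) (AL1.Wp_alpha (M * ℓ) p hp hpMℓ) x

/-- **(AL2-β)** `w_p ∘ β_ℓ = β_ℓ ∘ w_p`. -/
theorem alBarUp_beta (hp : p.Prime) (hpM : ¬ p ∣ M) (hpMℓ : ¬ p ∣ M * ℓ) (x : FF (M * p)) :
    alBarUp M p ℓ hp hpMℓ (heckeBetaBar Kbar (M * p) ℓ x) =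
      heckeBetaBar Kbar (M * p) ℓ (AL1.alBar M p hp hpM x) := by
  apply Subtype.ext
  rw [coe_alBarUp, coe_heckeBetaBar, AL1.coe_alBar]
  exact commute_beta hp (AL1.Wp_beta M p hp hpM) (AL1.Wp_alpha M p hp hpM)
    (AL1.Wp_beta (M * ℓ) p hp hpMℓ) (AL1.Wp_alpha (M * ℓ) p hp hpMℓ) x

/-- `w_p (N_α (β f)) = N_α (β (w_p f))`. -/
theorem alBar_normAlong_alpha_beta (hp : p.Prime) (hpM : ¬ p ∣ M) (hpMℓ : ¬ p ∣ M * ℓ)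
    (f : FF (M * p)) :
    AL1.alBar M p hp hpM
        (normAlong (heckeAlphaBar Kbar (M * p) ℓ) (heckeBetaBar Kbar (M * p) ℓ f)) =
      normAlong (heckeAlphaBar Kbar (M * p) ℓ)
        (heckeBetaBar Kbar (M * p) ℓ (AL1.alBar M p hp hpM f)) :=
  normAlong_alpha_beta_map_equiv (L := Kbar) (N := M * p) (ℓ := ℓ)
    (AL1.alBar M p hp hpM).toRingEquiv (alBarUp M p ℓ hp hpMℓ)
    (alBarUp_alpha M p ℓ hp hpM hpMℓ) (alBarUp_beta M p ℓ hp hpM hpMℓ) f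

/-- `w_p (N_β (α f)) = N_β (α (w_p f))`. -/
theorem alBar_normAlong_beta_alpha (hp : p.Prime) (hpM : ¬ p ∣ M) (hpMℓ : ¬ p ∣ M * ℓ)
    (f : FF (M * p)) :
    AL1.alBar M p hp hpM
        (normAlong (heckeBetaBar Kbar (M * p) ℓ) (heckeAlphaBar Kbar (M * p) ℓ f)) =
      normAlong (heckeBetaBar Kbar (M * p) ℓ)
        (heckeAlphaBar Kbar (M * p) ℓ (AL1.alBar M p hp hpM f)) :=
  normAlong_beta_alpha_map_equiv (L := Kbar) (N := M * p) (ℓ := ℓ)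
    (AL1.alBar M p hp hpM).toRingEquiv (alBarUp M p ℓ hp hpMℓ)
    (alBarUp_alpha M p ℓ hp hpM hpMℓ) (alBarUp_beta M p ℓ hp hpM hpMℓ) f

/-- `W_p (N_α (β f)) = N_α (β (w_p f))` as series. -/
theorem Wp_normAlong_alpha_beta (hp : p.Prime) (hpM : ¬ p ∣ M) (hpMℓ : ¬ p ∣ M * ℓ)
    (f : FF (M * p)) :
    AL1.Wp M p hp hpM
        (normAlong (heckeAlphaBar Kbar (M * p) ℓ) (heckeBetaBar Kbar (M * p) ℓ f)) =
      ((normAlong (heckeAlphaBar Kbar (M * p) ℓ)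
        (heckeBetaBar Kbar (M * p) ℓ (AL1.alBar M p hp hpM f)) : FF (M * p)) :
          LaurentSeries Kbar) := by
  rw [← AL1.coe_alBar, alBar_normAlong_alpha_beta M p ℓ hp hpM hpMℓ]

/-- `W_p (N_β (α f)) = N_β (α (w_p f))` as series. -/
theorem Wp_normAlong_beta_alpha (hp : p.Prime) (hpM : ¬ p ∣ M) (hpMℓ : ¬ p ∣ M * ℓ)
    (f : FF (M * p)) :
    AL1.Wp M p hp hpM
        (normAlong (heckeBetaBar Kbar (M * p) ℓ) (heckeAlphaBar Kbar (M * p) ℓ f)) =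
      ((normAlong (heckeBetaBar Kbar (M * p) ℓ)
        (heckeAlphaBar Kbar (M * p) ℓ (AL1.alBar M p hp hpM f)) : FF (M * p)) :
          LaurentSeries Kbar) := by
  rw [← AL1.coe_alBar, alBar_normAlong_beta_alpha M p ℓ hp hpM hpMℓ]

/-- **(AL3, `T_ℓ`)** for `ℓ ∤ M p`:
`(W_p (N_α (β f)))(q^ℓ) = (∏_{b<ℓ} (W_p f)(ζ^b q)) · (W_p f)(q^{ℓ²})`. -/
theorem qExpand_Wp_normAlong_alpha_beta (hp : p.Prime) (hpM : ¬ p ∣ M) (hℓ : ℓ.Prime)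
    (hℓN : ¬ ℓ ∣ M * p) (ζ : Kbarˣ) (hζ : IsPrimitiveRoot ζ ℓ) (f : FF (M * p)) :
    qExpand Kbar ℓ (AL1.Wp M p hp hpM
        (normAlong (heckeAlphaBar Kbar (M * p) ℓ) (heckeBetaBar Kbar (M * p) ℓ f))) =
      (∏ b ∈ Finset.range ℓ, twistU (ζ ^ b) (AL1.Wp M p hp hpM f)) *
        qExpand Kbar (ℓ ^ 2) (AL1.Wp M p hp hpM f) := by
  have hpMℓ : ¬ p ∣ M * ℓ := not_dvd_mul_of_ne M p ℓ hp hpM hℓ (ne_of_not_dvd_mul M p ℓ hℓN)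
  rw [Wp_normAlong_alpha_beta M p ℓ hp hpM hpMℓ, ← AL1.coe_alBar]
  exact Fermat.Agent.ES.KRON.ConjNorm11.qExpand_normAlong_alpha_beta (M * p) ℓ hℓ hℓN ζ hζ
    (AL1.alBar M p hp hpM f)

/-- the same for `N_β (α f)` (`ℓ ∤ M p`). -/
theorem qExpand_Wp_normAlong_beta_alpha (hp : p.Prime) (hpM : ¬ p ∣ M) (hℓ : ℓ.Prime)
    (hℓN : ¬ ℓ ∣ M * p) (ζ : Kbarˣ) (hζ : IsPrimitiveRoot ζ ℓ) (f : FF (M * p)) :
    qExpand Kbar ℓ (AL1.Wp M p hp hpM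
        (normAlong (heckeBetaBar Kbar (M * p) ℓ) (heckeAlphaBar Kbar (M * p) ℓ f))) =
      (∏ b ∈ Finset.range ℓ, twistU (ζ ^ b) (AL1.Wp M p hp hpM f)) *
        qExpand Kbar (ℓ ^ 2) (AL1.Wp M p hp hpM f) := by
  have hpMℓ : ¬ p ∣ M * ℓ := not_dvd_mul_of_ne M p ℓ hp hpM hℓ (ne_of_not_dvd_mul M p ℓ hℓN)
  rw [Wp_normAlong_beta_alpha M p ℓ hp hpM hpMℓ, ← AL1.coe_alBar]
  exact Fermat.Agent.ES.KRON.ConjNorm11.qExpand_normAlong_beta_alpha (M * p) ℓ hℓ hℓN ζ hζ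
    (AL1.alBar M p hp hpM f)

/-- **(AL3, `U_ℓ`)** for `ℓ ∣ M`:
`(W_p (N_β (α f)))(q^ℓ) = ∏_{b<ℓ} (W_p f)(ζ^b q)`. -/
theorem qExpand_Wp_normAlong_beta_alpha_of_dvd (hp : p.Prime) (hpM : ¬ p ∣ M) (hℓ : ℓ.Prime)
    (hℓM : ℓ ∣ M) {ζ : Kbarˣ} (hζ : IsPrimitiveRoot ζ ℓ) (f : FF (M * p)) :
    qExpand Kbar ℓ (AL1.Wp M p hp hpM
        (normAlong (heckeBetaBar Kbar (M * p) ℓ) (heckeAlphaBar Kbar (M * p) ℓ f))) =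
      ∏ b ∈ Finset.range ℓ, twistU (ζ ^ b) (AL1.Wp M p hp hpM f) := by
  have hpMℓ : ¬ p ∣ M * ℓ :=
    not_dvd_mul_of_ne M p ℓ hp hpM hℓ (ne_of_dvd_of_not_dvd M p ℓ hpM hℓM)
  rw [Wp_normAlong_beta_alpha M p ℓ hp hpM hpMℓ, ← AL1.coe_alBar]
  exact Fermat.Agent.T1B.UProd27.qExpand_normAlong_beta_alpha hℓ (Dvd.dvd.mul_right hℓM p) hζ
    (AL1.alBar M p hp hpM f)

end Fermat.Agent.T1B.ALP27
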