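/-
T1B / F8 HECKE-N (brick 528), slice S4 'DELTA': FINAL FORM, SIDE 2 (helper27), the twin of helper3's
`Hecke3/DeltaFinal.lean` for the Atkin–Lehner expansion `W_p` at the cusp `w_p(∞)` of `X₀(M p)`.

`M` a level, `p ∤ M` prime, `W_p = ALP90.AL1.Wp M p hp hpM : FF (M p) →+* ℚbar((q))` (helper20),
`A` a valuation subring of `ℚbar` with residue field `κ` of characteristic `r`:
* `delta2 : J₀(M p)(ℚbar)[r] →+ κ((q))`, `delta2 x = dl A (W_p f)` for `r • D = div f`, `x = cls D`;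
* `delta_heckeOperatorBar_of_prod` : `T_ℓ`-equivariance for the Prelude's `heckeOperatorBar` of the
  `delta` of a general expansion `e`, given the product formula for `e`;
* `delta2_heckeT` : `delta2 (T_ℓ x) = heckeT2 ℓ (delta2 x)` for primes `ℓ ∤ M p`, `ℓ ≠ r`;
* `delta2_heckeU` : `delta2 (U x) = Uop ℓ (delta2 x)` for primes `ℓ ∣ M`, `ℓ ≠ r`, `U = β_* α^*`;
* `occ_delta2`    : transport of the occurrence subgroup `Top68.OccSub U (M p) r good a C`.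
Inputs: `ALP27.Final` (product formulas for `W_p`), `Hecke3.DeltaX0` (generic `_of_prod`),
`Hecke87.deltaInputs₂`.
-/
import Mathlib
import Fermat.Agent.T1B.ALP27.Final
import Fermat.Agent.T1B.Hecke3.DeltaFinal
import Fermat.Agent.T1B.Hecke87.InputsFinal

set_option autoImplicit false
set_option linter.unusedSectionVars false

noncomputable section

namespace Fermat.Agent.T1B.ALP27

open HahnSeries ModularCurve AlgebraicCurve IntermediateField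
open Fermat.Agent.X0 Fermat.Agent.T1B.Hecke3 Fermat.Agent.T1B.Hecke7 Fermat.Agent.T1B.DivNorm27
open Fermat.Agent.ES.HECKE.InputsMain19 Fermat.Agent.T1B.Top68
open Fermat.Agent.ES.HECKE.PointFormula28 Fermat.Agent.ES.KRON.KronCong24
open Fermat.Agent.T1B.ALP90

/-! ### the Prelude's `heckeOperatorBar` for a general expansion -/

section General

variable {N : ℕ} [NeZero N] {A : ValuationSubring Kbar} {r : ℕ}

/-- **`T_ℓ`-equivariance of `delta` for the Prelude's Hecke operator** and a general expansion `e`,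
given the product formula of `N_α (β f)` for `e`. -/
theorem delta_heckeOperatorBar_of_prod (e : FF N →+* LaurentSeries Kbar) (H : DeltaInputs A e r)
    (ℓ : Nat.Primes) (hℓr : ((ℓ : ℕ) : Kap A) ≠ 0)
    (hprod : haveI : NeZero (ℓ : ℕ) := ⟨ℓ.2.ne_zero⟩;
      ∃ ζ : Kbarˣ, IsPrimitiveRoot ζ (ℓ : ℕ) ∧ ∀ f : FF N, qExpand Kbar (ℓ : ℕ)
        (e (normAlong (heckeAlphaBar Qb N (ℓ : ℕ)) (heckeBetaBar Qb N (ℓ : ℕ) f))) =
      (∏ b ∈ Finset.range (ℓ : ℕ), twistU (ζ ^ b) (e f)) * qExpand Kbar ((ℓ : ℕ) ^ 2) (e f))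
    (x : Pic0.torsion Kbar (FF N) r)
    (h : heckeOperatorBar N ℓ (x : Pic0 Kbar (FF N)) ∈ Pic0.torsion Kbar (FF N) r) :
    delta A e r H ⟨heckeOperatorBar N ℓ (x : Pic0 Kbar (FF N)), h⟩ =
      (haveI : NeZero (ℓ : ℕ) := ⟨ℓ.2.ne_zero⟩; heckeT2 (ℓ : ℕ) (delta A e r H x)) := by
  have : NeZero (ℓ : ℕ) := ⟨ℓ.2.ne_zero⟩
  have := hasPrincipalDivisors_level N (ℓ : ℕ)
  obtain ⟨ζ, hζ, hpr⟩ := hprod
  have hop := heckeOperatorAlong_eq (heckeAlphaBarIntegral_all N (ℓ : ℕ) ℓ.2)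
    (heckeBetaBarIntegral_all N (ℓ : ℕ) ℓ.2) (fundamentalIdentityAlong_beta_all N (ℓ : ℕ) ℓ.2)
    (finiteAlong_alpha_all N (ℓ : ℕ) ℓ.2) (normFormulaAlong_alpha_all N (ℓ : ℕ) ℓ.2)
  have key := delta_heckePic0Bar_of_prod e H ℓ.2 hℓr (heckeAlphaBarIntegral_all N (ℓ : ℕ) ℓ.2)
    (heckeBetaBarIntegral_all N (ℓ : ℕ) ℓ.2) (fundamentalIdentityAlong_beta_all N (ℓ : ℕ) ℓ.2)
    (finiteAlong_alpha_all N (ℓ : ℕ) ℓ.2) (normFormulaAlong_alpha_all N (ℓ : ℕ) ℓ.2) ζ hζ hpr x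
  rw [← key]
  congr 1
  apply Subtype.ext
  show heckeOperatorBar N ℓ (x : Pic0 Kbar (FF N)) = _
  rw [heckeOperatorBar_apply, hop]

end General

/-! ### side 2 -/

section Side2

variable (M p : ℕ) [NeZero M] [NeZero p] (hp : p.Prime) (hpM : ¬ p ∣ M)
  (A : ValuationSubring Kbar) (r : ℕ) [CharP (Kap A) r]

/-- **`δ₂ : J₀(M p)(ℚbar)[r] →+ κ((q))`**, the `q`-dlog at the cusp `w_p(∞)`. -/
def delta2 : Pic0.torsion Kbar (FF (M * p)) r →+ LaurentSeries (Kap A) :=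
  delta A (AL1.Wp M p hp hpM) r (Fermat.Agent.T1B.Hecke87.deltaInputs₂ M p hp hpM A r)

variable {M p hp hpM A r}

theorem delta2_eq (x : Pic0.torsion Kbar (FF (M * p)) r)
    {D : Divisor.degZero (K := Kbar) (F := FF (M * p))} {f : FF (M * p)}
    (h : IsPData (K := Kbar) r (x : Pic0 Kbar (FF (M * p))) D f) :
    delta2 M p hp hpM A r x = dl A (AL1.Wp M p hp hpM f) :=
  delta_eq (Fermat.Agent.T1B.Hecke87.deltaInputs₂ M p hp hpM A r) x h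

/-- **`T_ℓ`-equivariance of `δ₂`**, `ℓ ∤ M p`, `ℓ ≠ r`. -/
theorem delta2_heckeT (ℓ : Nat.Primes) (hℓN : ¬ (ℓ : ℕ) ∣ M * p) (hℓr : ((ℓ : ℕ) : Kap A) ≠ 0)
    (x : Pic0.torsion Kbar (FF (M * p)) r)
    (h : heckeOperatorBar (M * p) ℓ (x : Pic0 Kbar (FF (M * p))) ∈
      Pic0.torsion Kbar (FF (M * p)) r) :
    delta2 M p hp hpM A r ⟨heckeOperatorBar (M * p) ℓ (x : Pic0 Kbar (FF (M * p))), h⟩ =
      (haveI : NeZero (ℓ : ℕ) := ⟨ℓ.2.ne_zero⟩; heckeT2 (ℓ : ℕ) (delta2 M p hp hpM A r x)) := by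
  have : NeZero (ℓ : ℕ) := ⟨ℓ.2.ne_zero⟩
  obtain ⟨ζ, hζ⟩ := exists_primitiveRoot_unit' (ℓ : ℕ)
  exact delta_heckeOperatorBar_of_prod (AL1.Wp M p hp hpM)
    (Fermat.Agent.T1B.Hecke87.deltaInputs₂ M p hp hpM A r) ℓ hℓr
    ⟨ζ, hζ, fun f => qExpand_Wp_normAlong_alpha_beta M p (ℓ : ℕ) hp hpM ℓ.2 hℓN ζ hζ f⟩ x h

/-- **`U_ℓ`-equivariance of `δ₂`** for `β_* α^*`, `ℓ ∣ M`, `ℓ ≠ r`. -/
theorem delta2_heckeU {ℓ : ℕ} [NeZero ℓ] (hℓ : ℓ.Prime) (hℓM : ℓ ∣ M) (hℓr : (ℓ : Kap A) ≠ 0)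
    [HasPrincipalDivisors Qb (laurentBaseChange Qb (modularFunctionFieldFull (M * p * ℓ)))]
    (hα : HeckeAlphaBarIntegral Qb (M * p) ℓ) (hβ : HeckeBetaBarIntegral Qb (M * p) ℓ)
    (hFI : FundamentalIdentityAlong Qb (heckeAlphaBar Qb (M * p) ℓ) hα)
    (hfin : FiniteAlong Qb (heckeBetaBar Qb (M * p) ℓ))
    (hN : NormFormulaAlong Qb (heckeBetaBar Qb (M * p) ℓ) hfin)
    (x : Pic0.torsion Kbar (FF (M * p)) r)
    (h : heckePic0BarTranspose hα hβ hFI hfin hN (x : Pic0 Kbar (FF (M * p))) ∈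
      Pic0.torsion Kbar (FF (M * p)) r) :
    delta2 M p hp hpM A r
        ⟨heckePic0BarTranspose hα hβ hFI hfin hN (x : Pic0 Kbar (FF (M * p))), h⟩ =
      Uop ℓ (delta2 M p hp hpM A r x) := by
  obtain ⟨ζ, hζ⟩ := exists_primitiveRoot_unit' ℓ
  exact delta_heckePic0BarTranspose_of_prod (AL1.Wp M p hp hpM)
    (Fermat.Agent.T1B.Hecke87.deltaInputs₂ M p hp hpM A r) hℓ hℓr hα hβ hFI hfin hN ζ hζ
    (fun f => qExpand_Wp_normAlong_beta_alpha_of_dvd M p ℓ hp hpM hℓ hℓM hζ f) x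

/-- **Transport of the occurrence subgroup, side 2.**  Let `U` be a family of `U_2`-operators with
`U (M p) = β_* α^*` (prime `2 ∣ M`).  For `x ∈ OccSub U (M p) r good a C`, where the good primes do
not divide `M p` and are invertible in `κ`, the `q`-series `y = δ₂ x` satisfies
`heckeT2 ℓ y = a_ℓ • y` for all good `ℓ` and `c(Uop 2) y = 0` for all `c ∈ C`. -/
theorem occ_delta2 (h2M : 2 ∣ M) (h2 : ((2 : ℕ) : Kap A) ≠ 0) (U : UFamily)
    [HasPrincipalDivisors Qb (laurentBaseChange Qb (modularFunctionFieldFull (M * p * 2)))]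
    (hα : HeckeAlphaBarIntegral Qb (M * p) 2) (hβ : HeckeBetaBarIntegral Qb (M * p) 2)
    (hFI : FundamentalIdentityAlong Qb (heckeAlphaBar Qb (M * p) 2) hα)
    (hfin : FiniteAlong Qb (heckeBetaBar Qb (M * p) 2))
    (hN : NormFormulaAlong Qb (heckeBetaBar Qb (M * p) 2) hfin)
    (hU : ∀ x : JZero (M * p), U (M * p) x = heckePic0BarTranspose hα hβ hFI hfin hN x)
    (good : ℕ → Prop) (a : ℕ → ℤ) (C : Set (Polynomial ℤ))
    (hgood : ∀ ℓ : ℕ, good ℓ → ¬ ℓ ∣ M * p ∧ (ℓ : Kap A) ≠ 0)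
    (x : JZero (M * p)) (hx : x ∈ OccSub U (M * p) r good a C) :
    ∃ hx' : x ∈ Pic0.torsion Kbar (FF (M * p)) r,
      (∀ ℓ : Nat.Primes, good ℓ →
        (haveI : NeZero (ℓ : ℕ) := ⟨ℓ.2.ne_zero⟩;
          heckeT2 (ℓ : ℕ) (delta2 M p hp hpM A r ⟨x, hx'⟩)) =
          a ℓ • delta2 M p hp hpM A r ⟨x, hx'⟩) ∧
      ∀ c ∈ C, Polynomial.aeval (UopEnd (k := Kap A) 2) c (delta2 M p hp hpM A r ⟨x, hx'⟩) = 0 := by
  obtain ⟨hxp, hxT, hxC⟩ := hx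
  have hx' : x ∈ Pic0.torsion Kbar (FF (M * p)) r := Pic0.mem_torsion.2 hxp
  refine ⟨hx', fun ℓ hℓ => ?_, fun c hc => ?_⟩
  · obtain ⟨hℓN, hℓr⟩ := hgood ℓ hℓ
    have hT : heckeOperatorBar (M * p) ℓ x ∈ Pic0.torsion Kbar (FF (M * p)) r := by
      rw [hxT ℓ hℓ]
      exact (Pic0.torsion Kbar (FF (M * p)) r).zsmul_mem hx' _
    rw [← delta2_heckeT ℓ hℓN hℓr ⟨x, hx'⟩ hT, ← map_zsmul]
    congr 1
    exact Subtype.ext (hxT ℓ hℓ)
  · have hTH : ∀ z ∈ Pic0.torsion Kbar (FF (M * p)) r,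
        U (M * p) z ∈ Pic0.torsion Kbar (FF (M * p)) r := by
      intro z hz
      rw [hU]
      exact map_mem_torsion _ hz
    refine intertwine_aeval_eq_zero (Pic0.torsion Kbar (FF (M * p)) r) (delta2 M p hp hpM A r)
      (U (M * p)) (UopEnd 2) hTH ?_ c ⟨x, hx'⟩ (hxC c hc)
    intro z
    have key := delta2_heckeU (hp := hp) (hpM := hpM) (A := A) (r := r) Nat.prime_two h2M h2
      hα hβ hFI hfin hN z (map_mem_torsion _ z.2)
    show delta2 M p hp hpM A r ⟨U (M * p) (z : JZero (M * p)), _⟩ =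
      Uop 2 (delta2 M p hp hpM A r z)
    rw [← key]
    congr 1
    exact Subtype.ext (hU _)

end Side2

end Fermat.Agent.T1B.ALP27
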